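/-
T4E-D (helper4): **reduction of (NEW_e) to Kummer functions defined over the inertia field**.

`T4eNewUnrAtC wU N'' q k h c` is `T4eNewAtC wU N'' q k h c` where the inertia-invariance of the class
of `y` is replaced by: `y` comes from the function field `tbLevF 𝔓 N ⊤` over the inertia field
`L = ℚ̄^I` (`𝔓 = ⟨A, q, _, _⟩`, `N = N'' q^k q q`);
`t4e_newAtC_of_unr : T4eNewUnrAtC wU N'' q k h c → T4eNewAtC wU N'' q k h c` (by the level-generic
descent `t4d_descend` of `Lib/T4/Desc/Descend.lean`).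
-/
import Fermat.Agent.Lib.T4.Desc.Descend
import Fermat.Agent.Lib.T4E.Defs

set_option autoImplicit false
set_option linter.unusedSectionVars false
set_option linter.unusedVariables false
set_option linter.style.haveILetI false

open Fermat.Agent.T1 Fermat.Agent.T2 Fermat.Agent.TW ModularCurve Fermat.Agent.S24Lib

namespace Fermat.Agent.T4

local notation "Kbar" => AlgebraicClosure ℚ
local notation "GQ" => (AlgebraicClosure ℚ ≃ₐ[ℚ] AlgebraicClosure ℚ)

/-- **(NEW_e) for functions defined over the inertia field**, with the multiplier `c` -/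
def T4eNewUnrAtC (wU : T4eWType) (N'' q k : ℕ) [NeZero N''] [hq : Fact q.Prime] (h : ¬ q ∣ N'')
    [NeZero (N'' * q ^ k * q * q)] (c : ℕ) : Prop :=
  ∀ (A : ValuationSubring Kbar) (hA : A.LiesOverPrime q),
    ∀ m : ℕ, Nat.Coprime m q → m ≠ 0 →
      ∀ y : (↥(modularFunctionFieldBar (N'' * q ^ k * q * q)))ˣ,
        y ∈ tWsub Kbar (N'' * q ^ k * q * q) m →
        (∃ f : ↥(tbLevF (⟨A, q, hq.out, hA⟩ : FFPlace) (N'' * q ^ k * q * q) ⊤),
          tbPhiF (⟨A, q, hq.out, hA⟩ : FFPlace) (N'' * q ^ k * q * q) ⊤ f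
            = (y : ↥(modularFunctionFieldBar (N'' * q ^ k * q * q)))) →
        (∃ t : (↥(modularFunctionFieldBar (N'' * q ^ k * q * q)))ˣ,
          tkrHeckeUUnits (N'' * q ^ k * q * q) q y = t ^ m) →
        (∃ t : (↥(modularFunctionFieldBar (N'' * q ^ k * q * q)))ˣ,
          tkrHeckeUUnits (N'' * q ^ k * q * q) q (wU N'' q k h y) = t ^ m) →
        ∃ t : (↥(modularFunctionFieldBar (N'' * q ^ k * q * q)))ˣ, y ^ c = t ^ m

/-- **(NEW_e) from (NEW_e) over the inertia field**, same multiplier -/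
theorem t4e_newAtC_of_unr (wU : T4eWType) (N'' q k : ℕ) [NeZero N''] [hq : Fact q.Prime]
    (h : ¬ q ∣ N'') [NeZero (N'' * q ^ k * q * q)] (c : ℕ)
    (hunr : T4eNewUnrAtC wU N'' q k h c) : T4eNewAtC wU N'' q k h c := by
  intro A hA m hmq hm y hy hI hU hUW
  set 𝔓 : FFPlace := ⟨A, q, hq.out, hA⟩ with h𝔓
  obtain ⟨s, f, hf⟩ := t4d_descend 𝔓 (N'' * q ^ k * q * q) hm y hI
  obtain ⟨t₁, ht₁⟩ := hU
  obtain ⟨t₂, ht₂⟩ := hUW
  obtain ⟨t, ht⟩ := hunr A hA m hmq hm (y * s ^ m)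
    ((tWsub Kbar (N'' * q ^ k * q * q) m).mul_mem hy
      (tkr_pow_mem_tWsub (N'' * q ^ k * q * q) m s)) ⟨f, hf⟩
    ⟨t₁ * tkrHeckeUUnits (N'' * q ^ k * q * q) q s, by rw [map_mul, map_pow, ht₁, mul_pow]⟩
    ⟨t₂ * tkrHeckeUUnits (N'' * q ^ k * q * q) q (wU N'' q k h s), by
      rw [map_mul, map_mul, map_pow, map_pow, ht₂, mul_pow]⟩
  refine ⟨t * (s ^ c)⁻¹, ?_⟩
  rw [mul_pow, ← ht, mul_pow, inv_pow, ← pow_mul, ← pow_mul, mul_comm m, mul_inv_cancel_right]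

/-- **(NEW_e) over the inertia field**: some non-zero multiplier works -/
def T4eNewUnrAt (wU : T4eWType) (N'' q k : ℕ) [NeZero N''] [Fact q.Prime] (h : ¬ q ∣ N'')
    [NeZero (N'' * q ^ k * q * q)] : Prop :=
  ∃ c : ℕ, c ≠ 0 ∧ T4eNewUnrAtC wU N'' q k h c

theorem t4e_newAt_of_unr (wU : T4eWType) (N'' q k : ℕ) [NeZero N''] [Fact q.Prime]
    (h : ¬ q ∣ N'') [NeZero (N'' * q ^ k * q * q)] (hunr : T4eNewUnrAt wU N'' q k h) :
    T4eNewAt wU N'' q k h := by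
  obtain ⟨c, hc, hu⟩ := hunr
  exact ⟨c, hc, t4e_newAtC_of_unr wU N'' q k h c hu⟩

/-- **(NEW_e) over the inertia field at the levels without elliptic points**: the target of the
geometry (T4E-N) -/
def T4eNewUnrAux (wU : T4eWType) : Prop :=
  ∀ (N'' q k : ℕ) [NeZero N''] [Fact q.Prime] (h : ¬ q ∣ N'') [NeZero (N'' * q ^ k * q * q)],
    1 ≤ k → (4 ∣ N'' ∨ 9 ∣ N'') → T4eNewUnrAt wU N'' q k h

theorem t4e_newAux_of_unr (wU : T4eWType) (hunr : T4eNewUnrAux wU) : T4eNewAux wU :=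
  fun N'' q k _ _ h _ hk h49 => t4e_newAt_of_unr wU N'' q k h (hunr N'' q k h hk h49)

end Fermat.Agent.T4
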